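/-
S30 (helper95, top owner): the binding interface of the S30 route "(TR) ∧ (RHO)" (helper90's
route, report 1993).  `TRStatement p N S 𝒪' χ` says: there is a pseudo-trace `t : G_ℚ → 𝒪'`
(of dimension two, odd, continuous, unramified outside `N p`, with the prescribed values at
Frobenius lifts).  (TR) proves it from the Abel–Jacobi family; (RHO) consumes it and builds the
representation.
-/
import Mathlib
import Fermat.Prelude.Def_CuspForm_HeckeGaloisRepDatum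
import Fermat.Prelude.Def_GaloisRep_ComplexConjugation

set_option autoImplicit false

namespace Fermat.Agent.S30.H95

local notation "Γ" => (AlgebraicClosure ℚ ≃ₐ[ℚ] AlgebraicClosure ℚ)

/-- **(TR)**: the pseudo-trace attached to a Hecke character `χ`.  The clauses are `(t1)`–`(t8)`
of report 1993 in this order. -/
def TRStatement (p N : ℕ) [NeZero N] (S : Finset ℕ) (R : Type) [CommRing R] [IsLocalRing R]
    (χ : CuspForm.heckeAlgebra N 2 (↑S : Set ℕ) →+* R) : Prop :=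
  ∃ t : Γ → R,
    t 1 = 2 ∧
    (∀ g h : Γ, t (g * h) = t (h * g)) ∧
    (∀ g h : Γ, 2 * t (g * h) + (t h ^ 2 - t (h ^ 2)) * t (g * h⁻¹) = 2 * (t g * t h)) ∧
    (∀ g h : Γ, 2 * (t (g * h) ^ 2 - t ((g * h) ^ 2)) =
      (t g ^ 2 - t (g ^ 2)) * (t h ^ 2 - t (h ^ 2))) ∧
    t complexConjugation = 0 ∧
    (∀ (ℓ : ℕ) (hℓ : ℓ.Prime) (hℓN : ¬ ℓ ∣ N) (hℓS : ℓ ∉ (↑S : Set ℕ)),
      ∀ A : ValuationSubring (AlgebraicClosure ℚ), A.LiesOverPrime ℓ →
        ∀ σ : Γ, A.IsFrobeniusAt σ ℓ →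
          t σ = χ (CuspForm.heckeAlgebra.T hℓ hℓN hℓS) ∧ t σ ^ 2 - t (σ ^ 2) = 2 * (ℓ : R)) ∧
    (∀ q : ℕ, q.Prime → ¬ q ∣ N → q ≠ p →
      ∀ A : ValuationSubring (AlgebraicClosure ℚ), A.LiesOverPrime q →
        ∀ σ ∈ A.inertiaSubgroupIn ℚ, ∀ g : Γ, t (σ * g) = t g) ∧
    (∀ n : ℕ, ∃ L : IntermediateField ℚ (AlgebraicClosure ℚ), FiniteDimensional ℚ L ∧
      ∀ σ : Γ, (∀ x ∈ L, σ x = x) → ∀ g : Γ, t (σ * g) - t g ∈ IsLocalRing.maximalIdeal R ^ n)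

end Fermat.Agent.S30.H95
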