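/-
S30 (helper95): the Abel–Jacobi leaf `AJLeaf N p` (helper34's `S31/H34/Leaves`) from helper96's
landed AJ core in the integral shape (R1), `S42.H96.exists_AJ_pow`, at the moduli `p ^ n`.
-/
import Mathlib
import Fermat.Agent.S31.H34.Leaves
import Fermat.Agent.S42.H96.Final

set_option autoImplicit false

namespace Fermat.Agent.S30.H95

/-- **(AJ)** = (R1) at every modulus `p ^ n`. -/
theorem ajLeaf_pow (N p : ℕ) [NeZero N] (hp : p ≠ 0) : Fermat.Agent.S31.H34.AJLeaf N p := by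
  intro n
  obtain ⟨AJ, hker, -, hT⟩ := Fermat.Agent.S42.H96.exists_AJ_pow N (p ^ n) (pow_ne_zero n hp)
  refine ⟨AJ, hker, fun ℓ hℓ ψ ψ' hψ' => ?_⟩
  rw [hT ℓ hℓ ψ]
  congr 1
  exact Subtype.ext hψ'.symm

end Fermat.Agent.S30.H95
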